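/-
GATE-J27 (S27) / node B7 = TORSISO (helper16; design helper27 5420): **the specialisation map on
`Pic0` and the torsion bijection**, on the abstract frame `(R : RedData K F k Ft)`,
`(H : LSpaceHyp R g c)` of `GJ/S37/LSpaceRed.lean`.

* `degree_mapDomain_rOf`   : `deg (r_* D) = deg D` (all places of degree one on both fibres);
* `mapDomain_rOf_mem_principal` : `r_*` maps principal divisors to principal divisors
  (`hunram` normalisation + `mapDomain_rOf_principal`);
* `redPic H hunram : Pic0 K F →+ Pic0 k Ft`, `redPic_mk`;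
* `mem_kerRed_iff` : `ξ ∈ GH.KerRed H ↔ redPic H hunram ξ = 0`;
* `redTors`, `redTors_injective` (from the binder `hinj` = node B6), `redTors_surjective`
  (helper19's `exists_lift_torsion`);
* **`torsionEquiv : Pic0.torsion K F m ≃+ Pic0.torsion k Ft m`**, `natCard_torsion_eq`.
-/
import Mathlib
import Fermat.Agent.GJ.S37.ROfSurj
import Fermat.Agent.GH.Vocab
import Fermat.Agent.GB.A.K2Gen.Divisible

set_option autoImplicit false
set_option linter.unusedSectionVars false

noncomputable section

open AlgebraicCurve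

namespace Fermat.Agent.GJ27.TorsIso

open Fermat.Agent.RRh45 Fermat.Agent.GJ.S37MinDiv Fermat.Agent.GJ.J1 Fermat.Agent.GJ.S37LSpace
  Fermat.Agent.GJ.S37ROfSurj Fermat.Agent.GH

variable {K F k Ft : Type*} [Field K] [Field F] [Algebra K F] [Field k] [Field Ft] [Algebra k Ft]
variable {R : RedData K F k Ft} {g c : ℤ}
variable [FiniteResidues K F] [HasPrincipalDivisors K F] [Nonempty (Place K F)]
variable [FiniteResidues k Ft] [HasPrincipalDivisors k Ft] [Nonempty (Place k Ft)]
variable [Infinite k]

/-- **unramifiedness of the Gauss valuation over the base** (the `hunram` binder of `GJ/S37`):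
every nonzero function is a constant times a unit of `Rw`. -/
def Unram (R : RedData K F k Ft) : Prop :=
  ∀ x : F, x ≠ 0 → ∃ c : K, c ≠ 0 ∧
    x / algebraMap K F c ∈ R.Rw ∧ (x / algebraMap K F c)⁻¹ ∈ R.Rw

/-! ### the specialisation of divisors -/

/-- the specialisation of divisors preserves the degree. -/
theorem degree_mapDomain_rOf (H : LSpaceHyp R g c) (D : Divisor K F) :
    Divisor.degree (Finsupp.mapDomain (rOf H) D) = Divisor.degree D := by
  classical
  induction D using Finsupp.induction_linear with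
  | zero => simp
  | add D E hD hE => rw [Finsupp.mapDomain_add, map_add, map_add, hD, hE]
  | single P n =>
    rw [Finsupp.mapDomain_single, Divisor.degree_single, Divisor.degree_single, H.degF P,
      H.degFt (rOf H P)]

/-- the specialisation of a principal divisor is principal. -/
theorem mapDomain_rOf_mem_principal (H : LSpaceHyp R g c) (hunram : Unram R)
    {D : Divisor K F} (hD : D ∈ Divisor.principal (K := K) (F := F)) :
    Finsupp.mapDomain (rOf H) D ∈ Divisor.principal (K := k) (F := Ft) := by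
  obtain ⟨f, hf, hDf⟩ := hD
  obtain ⟨a, ha, hu, hui⟩ := hunram f hf
  have ha' : algebraMap K F a ≠ 0 := (map_ne_zero (algebraMap K F)).mpr ha
  have hu0 : f / algebraMap K F a ≠ 0 := div_ne_zero hf ha'
  -- `u` is a unit of `Rw`, so its reduction is not zero
  have hred : R.red ⟨f / algebraMap K F a, hu⟩ ≠ 0 := by
    intro h0
    have h1 : R.red (⟨f / algebraMap K F a, hu⟩ * ⟨(f / algebraMap K F a)⁻¹, hui⟩) = 1 := by
      have : (⟨f / algebraMap K F a, hu⟩ * ⟨(f / algebraMap K F a)⁻¹, hui⟩ : R.Rw) = 1 := by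
        apply Subtype.ext
        show f / algebraMap K F a * (f / algebraMap K F a)⁻¹ = 1
        exact mul_inv_cancel₀ hu0
      rw [this, map_one]
    rw [map_mul, h0, zero_mul] at h1
    exact zero_ne_one h1
  have hDu : ∀ P : Place K F, D P = P.ord ((⟨f / algebraMap K F a, hu⟩ : R.Rw) : F) := by
    intro P
    show D P = P.ord (f / algebraMap K F a)
    rw [hDf P, div_eq_mul_inv, P.ord_mul hf (inv_ne_zero ha'), Place.ord_inv,
      Fermat.Agent.S24.PlaceB.ord_algebraMap P ha, neg_zero, add_zero]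
  exact ⟨R.red ⟨f / algebraMap K F a, hu⟩, hred, fun Q => mapDomain_rOf_principal H hred hDu Q⟩

/-- the specialisation of divisors of degree zero. -/
def redDiv0 (H : LSpaceHyp R g c) :
    Divisor.degZero (K := K) (F := F) →+ Divisor.degZero (K := k) (F := Ft) where
  toFun D := ⟨Finsupp.mapDomain (rOf H) (D : Divisor K F), by
    rw [Divisor.mem_degZero, degree_mapDomain_rOf, ← Divisor.mem_degZero]; exact D.2⟩
  map_zero' := by
    apply Subtype.ext
    show Finsupp.mapDomain (rOf H) (0 : Divisor K F) = 0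
    exact Finsupp.mapDomain_zero
  map_add' D E := by
    apply Subtype.ext
    show Finsupp.mapDomain (rOf H) ((D : Divisor K F) + (E : Divisor K F)) = _
    exact Finsupp.mapDomain_add

@[simp] theorem coe_redDiv0 (H : LSpaceHyp R g c) (D : Divisor.degZero (K := K) (F := F)) :
    ((redDiv0 H D : Divisor.degZero (K := k) (F := Ft)) : Divisor k Ft)
      = Finsupp.mapDomain (rOf H) (D : Divisor K F) := rfl

/-! ### the specialisation of divisor classes -/

section Pic

variable (H : LSpaceHyp R g c) (hunram : Unram R)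

/-- **the specialisation map on `Pic0`.** -/
def redPic (H : LSpaceHyp R g c) (hunram : Unram R) : Pic0 K F →+ Pic0 k Ft :=
  QuotientAddGroup.map _ _ (redDiv0 H) (by
    intro D hD
    rw [AddSubgroup.mem_comap, AddSubgroup.mem_addSubgroupOf]
    rw [AddSubgroup.mem_addSubgroupOf] at hD
    exact mapDomain_rOf_mem_principal H hunram hD)

theorem redPic_mk (D : Divisor.degZero (K := K) (F := F)) :
    redPic H hunram (Pic0.mk D) = Pic0.mk (redDiv0 H D) := rfl

theorem mk_eq_zero_iff {K F : Type*} [Field K] [Field F] [Algebra K F]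
    (D : Divisor.degZero (K := K) (F := F)) :
    Pic0.mk D = 0 ↔ (D : Divisor K F) ∈ Divisor.principal (K := K) (F := F) := by
  unfold Pic0.mk
  rw [QuotientAddGroup.eq_zero_iff, AddSubgroup.mem_addSubgroupOf]

/-- the kernel of reduction of `GH/Vocab.lean` is the kernel of `redPic`. -/
theorem mem_kerRed_iff (ξ : Pic0 K F) : ξ ∈ KerRed H ↔ redPic H hunram ξ = 0 := by
  constructor
  · rintro ⟨D, rfl, hD⟩
    rw [redPic_mk, mk_eq_zero_iff]
    exact hD
  · intro h
    obtain ⟨D, rfl⟩ := Pic0.mk_surjective ξ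
    rw [redPic_mk, mk_eq_zero_iff] at h
    exact ⟨D, rfl, h⟩

/-! ### torsion -/

variable (m : ℕ)

/-- the specialisation map on `m`-torsion. -/
def redTors (H : LSpaceHyp R g c) (hunram : Unram R) (m : ℕ) :
    Pic0.torsion K F m →+ Pic0.torsion k Ft m where
  toFun x := ⟨redPic H hunram x, by
    have hx := Pic0.mem_torsion.mp x.2
    rw [Pic0.mem_torsion, ← map_zsmul, hx, map_zero]⟩
  map_zero' := Subtype.ext (map_zero _)
  map_add' x y := Subtype.ext (map_add _ _ _)

@[simp] theorem coe_redTors (x : Pic0.torsion K F m) :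
    ((redTors H hunram m x : Pic0.torsion k Ft m) : Pic0 k Ft) = redPic H hunram x := rfl

/-- **injectivity on torsion** from the rigidity of torsion in the kernel of reduction (node B6). -/
theorem redTors_injective
    (hinj : ∀ ξ ∈ KerRed H, (m : ℤ) • ξ = 0 → ξ = 0) :
    Function.Injective (redTors H hunram m) := by
  rw [injective_iff_map_eq_zero]
  intro x hx
  have h0 : redPic H hunram x = 0 := congrArg Subtype.val hx
  exact Subtype.ext (hinj x ((mem_kerRed_iff H hunram x).mpr h0) (Pic0.mem_torsion.mp x.2))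

/-- **surjectivity on torsion** (helper19's torsion lifting). -/
theorem redTors_surjective [IsAlgClosed K] {n : ℕ} (hn : (n : ℤ) = g) (hm : 1 ≤ m)
    (hmk : (m : k) ≠ 0) : Function.Surjective (redTors H hunram m) := by
  rintro ⟨y, hy⟩
  obtain ⟨Dt, rfl⟩ := Pic0.mk_surjective y
  rw [Pic0.mem_torsion] at hy
  -- `m • Dt` is principal
  have hpr : m • (Dt : Divisor k Ft) ∈ Divisor.principal (K := k) (F := Ft) := by
    have h1 : Pic0.mk ((m : ℤ) • Dt) = 0 := hy
    rw [mk_eq_zero_iff] at h1
    have h2 : (((m : ℤ) • Dt : Divisor.degZero (K := k) (F := Ft)) : Divisor k Ft)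
        = m • (Dt : Divisor k Ft) := by
      rw [AddSubgroup.coe_zsmul, natCast_zsmul]
    rwa [h2] at h1
  obtain ⟨D, hdeg, hrD, hprD⟩ :=
    Fermat.Agent.GB.A.K2Gen.Divisible.exists_lift_torsion H hn hm hmk (Dt : Divisor k Ft) hpr
  have hD0 : D ∈ Divisor.degZero (K := K) (F := F) := Divisor.mem_degZero.mpr hdeg
  have hx : Pic0.mk ⟨D, hD0⟩ ∈ Pic0.torsion K F m := by
    rw [Pic0.mem_torsion]
    have h1 : (m : ℤ) • Pic0.mk (⟨D, hD0⟩ : Divisor.degZero (K := K) (F := F))
        = Pic0.mk ((m : ℤ) • ⟨D, hD0⟩) := rfl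
    rw [h1, mk_eq_zero_iff, AddSubgroup.coe_zsmul, natCast_zsmul]
    exact hprD
  refine ⟨⟨Pic0.mk ⟨D, hD0⟩, hx⟩, Subtype.ext ?_⟩
  show redPic H hunram (Pic0.mk ⟨D, hD0⟩) = Pic0.mk Dt
  rw [redPic_mk]
  congr 1
  exact Subtype.ext hrD

/-- **the torsion bijection**: specialisation identifies the `m`-torsion of the two fibres. -/
def torsionEquiv [IsAlgClosed K] (H : LSpaceHyp R g c) (hunram : Unram R) (m : ℕ) {n : ℕ}
    (hn : (n : ℤ) = g) (hm : 1 ≤ m) (hmk : (m : k) ≠ 0)
    (hinj : ∀ ξ ∈ KerRed H, (m : ℤ) • ξ = 0 → ξ = 0) :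
    Pic0.torsion K F m ≃+ Pic0.torsion k Ft m :=
  AddEquiv.ofBijective (redTors H hunram m)
    ⟨redTors_injective H hunram m hinj, redTors_surjective H hunram m hn hm hmk⟩

include hunram in
theorem natCard_torsion_eq [IsAlgClosed K] {n : ℕ} (hn : (n : ℤ) = g) (hm : 1 ≤ m)
    (hmk : (m : k) ≠ 0) (hinj : ∀ ξ ∈ KerRed H, (m : ℤ) • ξ = 0 → ξ = 0) :
    Nat.card (Pic0.torsion K F m) = Nat.card (Pic0.torsion k Ft m) :=
  Nat.card_congr (torsionEquiv H hunram m hn hm hmk hinj).toEquiv

end Pic

end Fermat.Agent.GJ27.TorsIso
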