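/-
GATE-J27 (S27) / node B7, part 2 (helper16): the binder `TorsIsoStmt` of `GJ27/Vocab.lean` from the
rigidity statement `InjStmt` (node B6) ALONE.

* `unram_of_lSpaceHyp` : `LSpaceHyp R g c ⟹ Unram R` — the `hunram` normalisation is a CONSEQUENCE
  of rank preservation (`GH/L2/Scale.exists_scale`), so `TorsIsoStmt` needs no such binder;
* `InjStmt`            : node B6 in statement form (same binders as `TorsIsoStmt`);
* `torsIsoStmt_of_injStmt : InjStmt → TorsIsoStmt`.
-/
import Mathlib
import Fermat.Agent.GJ27.Vocab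
import Fermat.Agent.GJ27.TorsIso
import Fermat.Agent.GH.L2.Scale

set_option autoImplicit false
set_option linter.unusedSectionVars false

noncomputable section

open AlgebraicCurve

namespace Fermat.Agent.GJ27

open Fermat.Agent.RRh45 Fermat.Agent.GJ.J1 Fermat.Agent.GJ.S37LSpace Fermat.Agent.GH
open Fermat.Agent.GJ27.TorsIso

universe u v

section Unram

variable {K F k Ft : Type*} [Field K] [Field F] [Algebra K F] [Field k] [Field Ft] [Algebra k Ft]
variable {R : RedData K F k Ft} {g c : ℤ}
variable [FiniteResidues K F] [HasPrincipalDivisors K F] [Nonempty (Place K F)]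
variable [FiniteResidues k Ft] [HasPrincipalDivisors k Ft] [Nonempty (Place k Ft)]
variable [Infinite k]

/-- **the Gauss valuation of a good-reduction frame is unramified over the base**: every nonzero
function is a constant times a unit of `Rw`. -/
theorem unram_of_lSpaceHyp (H : LSpaceHyp R g c) : Unram R := by
  intro x hx
  obtain ⟨a, z, ha, hxz, hz⟩ := Fermat.Agent.GH.L2.exists_scale H hx
  have ha' : algebraMap K F a ≠ 0 := (map_ne_zero (algebraMap K F)).mpr ha
  have e : x / algebraMap K F a = (z : F) := by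
    rw [hxz, Algebra.smul_def, mul_div_assoc, mul_comm, div_mul_cancel₀ _ ha']
  refine ⟨a, ha, ?_, ?_⟩
  · rw [e]; exact z.2
  · rw [e]
    -- `z` is a unit of `Rw`
    have hu : IsUnit z := by
      by_contra hnu
      exact hz ((R.red_eq_zero_iff z).mpr ((IsLocalRing.mem_maximalIdeal _).mpr hnu))
    obtain ⟨u, hu⟩ := hu
    have h1 : (z : F) * ((↑u⁻¹ : R.Rw) : F) = 1 := by
      have := congrArg Subtype.val (Units.mul_inv u)
      rw [hu] at this
      exact this
    rw [← eq_inv_of_mul_eq_one_right h1]
    exact (↑u⁻¹ : R.Rw).2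

end Unram

/-- **INJ** (node B6) in statement form: in the abstract good-reduction frame a torsion class of
order invertible in the residue field with principal reduction is trivial. -/
def InjStmt : Prop :=
  ∀ (K : Type u) (F : Type v) (k Ft : Type u) [Field K] [Field F] [Algebra K F] [Field k] [Field Ft]
    [Algebra k Ft] [IsAlgClosed K] [IsAlgClosed k]
    [FiniteResidues K F] [HasPrincipalDivisors K F] [Nonempty (Place K F)]
    [FiniteResidues k Ft] [HasPrincipalDivisors k Ft] [Nonempty (Place k Ft)]
    (R : RedData K F k Ft) (g : ℕ) (c : ℤ) (H : LSpaceHyp R (g : ℤ) c) (m : ℕ) (_ : (m : k) ≠ 0),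
    ∀ ξ ∈ KerRed H, (m : ℤ) • ξ = 0 → ξ = 0

/-- **TORSISO from INJ**: the binder `TorsIsoStmt` of the TOP assembly. -/
theorem torsIsoStmt_of_injStmt (h : InjStmt.{u, v}) : TorsIsoStmt.{u, v} := by
  intro K F k Ft _ _ _ _ _ _ _ _ _ _ _ _ _ _ R g c H m hm
  have hm1 : 1 ≤ m := by
    rcases Nat.eq_zero_or_pos m with rfl | h0
    · exact absurd Nat.cast_zero hm
    · exact h0
  exact natCard_torsion_eq H (unram_of_lSpaceHyp H) m (n := g) rfl hm1 hm
    (h K F k Ft R g c H m hm)

end Fermat.Agent.GJ27
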