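/-
GATE-J27 (S27) / TOP plug (helper27): `TorsIsoStmt` is a THEOREM — node B6 (helper38,
`GJ27/Inj/Main.eq_zero_of_nsmul_eq_zero`, rank-free torsion injectivity from the UPFV Hensel
uniqueness) plugged into node B7 (helper16, `GJ27/TorsIsoStmt.torsIsoStmt_of_injStmt`).
-/
import Mathlib
import Fermat.Agent.GJ27.TorsIsoStmt
import Fermat.Agent.GJ27.Inj.Main

set_option autoImplicit false

open AlgebraicCurve

namespace Fermat.Agent.GJ27

universe u v

/-- node B6 in statement form. -/
theorem injStmt : InjStmt.{u, v} := by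
  intro K F k Ft _ _ _ _ _ _ _ _ _ _ _ _ _ _ R g c H m hm ξ hξ hmξ
  have hinf : Infinite k := IsAlgClosed.instInfinite
  refine Fermat.Agent.GJ27.Inj.eq_zero_of_nsmul_eq_zero H (n := g) rfl hm hξ ?_
  rwa [natCast_zsmul] at hmξ

/-- **TORSISO** (nodes B6 + B7): the second binder of `s27_of_binders`, unconditionally. -/
theorem torsIsoStmt : TorsIsoStmt.{u, v} := torsIsoStmt_of_injStmt injStmt

end Fermat.Agent.GJ27
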