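/-
GATE-J27 (S27) / node GJ27-RRCONS (helper70): the seam A3 (RR duality, helper90) → A4 (zeta
function, helper1) in HYPOTHESIS FORM.

Frame = `RR/Final.lean` verbatim (any field `K`, char-free): `[FiniteResidues K F]
[HasPrincipalDivisors K F] [Nonempty (Place K F)]`, `ℓ(D) = ell D = finrank K (riemannRochSpace D)`,
`g = genusFF K F = finrank K (H1 0)`.

Part 1 (no duality): divisors of degree `0`
* `eq_zero_of_nonneg_of_degree_eq_zero` : an effective divisor of degree `0` is `0`;
* `mem_principal_of_mem` : `deg E = 0`, `0 ≠ f ∈ L(E)` ⟹ `E` principal;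
* `ell_congr` : `ℓ` only depends on the class;
* `ell_of_degree_zero` : `deg E = 0` ⟹ `ℓ(E) = ℓ(0)` if `E` is principal, `ℓ(E) = 0` otherwise.

Part 2 (binder `hdual : ∀ D, finrank K (H1 D) = ℓ(W - D)` = the export of A3):
* `riemann_roch` : `ℓ(D) - ℓ(W - D) = deg D + ℓ(0) - g`;
* `ell_canonical` : `ℓ(W) = g`;  `degree_canonical` : `deg W = 2g - 2ℓ(0)` (`= 2g - 2` if `ℓ(0) = 1`);
* `ell_of_large` : `deg D > deg W` ⟹ `ℓ(D) = deg D + ℓ(0) - g` and `H¹(D) = 0`;
* `ell_of_top` : `deg D = deg W` ⟹ `ℓ(D) = g` if `D ∼ W`, `ℓ(D) = g - ℓ(0)` otherwise;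
* the same with `ℓ(0) = 1` spelled out (`_one` versions): thresholds `2g - 1` and `2g - 2`.
-/
import Fermat.Agent.RR.Final

set_option autoImplicit false
set_option linter.unusedSectionVars false

open AlgebraicCurve

namespace Fermat.Agent.GJ27.RRCons

open Fermat.Agent.RRh45 Fermat.Agent.RR

variable {K F : Type*} [Field K] [Field F] [Algebra K F]
variable [FiniteResidues K F] [HasPrincipalDivisors K F] [Nonempty (Place K F)]

/-! ### Part 1: divisors of degree zero -/

/-- an effective divisor of degree `0` is `0` -/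
theorem eq_zero_of_nonneg_of_degree_eq_zero {E : Divisor K F} (h0 : 0 ≤ E)
    (hdeg : Divisor.degree E = 0) : E = 0 := by
  classical
  by_contra hne
  obtain ⟨v, hv⟩ : ∃ v, E v ≠ 0 := by
    by_contra h
    push Not at h
    exact hne (Finsupp.ext h)
  have hv0 : (0 : ℤ) ≤ E v := by
    have := Finsupp.le_def.mp h0 v
    simpa using this
  have hle : (0 : Divisor K F) ≤ E - Finsupp.single v 1 := by
    rw [Finsupp.le_def]
    intro w
    rw [Finsupp.sub_apply, Finsupp.single_apply]
    have hw := Finsupp.le_def.mp h0 w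
    simp only [Finsupp.coe_zero, Pi.zero_apply] at hw ⊢
    split_ifs with h
    · subst h; omega
    · omega
  have h1 := degree_nonneg_of_nonneg hle
  rw [map_sub, Divisor.degree_single, hdeg] at h1
  have hpos : (0 : ℤ) < v.deg := by exact_mod_cast deg_pos v
  linarith

/-- in degree `0`, a nonzero element of `L(E)` makes `E` principal -/
theorem mem_principal_of_mem {E : Divisor K F} (hdeg : Divisor.degree E = 0) {f : F}
    (hf : f ∈ riemannRochSpace E) (hf0 : f ≠ 0) : E ∈ Divisor.principal (K := K) (F := F) := by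
  obtain ⟨Df, hDf, hDf0⟩ := HasPrincipalDivisors.exists_divisor (K := K) f hf0
  rw [mem_riemannRochSpace_iff] at hf
  have hnn : 0 ≤ Df + E := by
    rw [Finsupp.le_def]
    intro w
    rcases hf w with h | h
    · exact absurd h hf0
    · simp only [Finsupp.coe_zero, Pi.zero_apply, Finsupp.coe_add, Pi.add_apply, hDf w]
      omega
  have hz := eq_zero_of_nonneg_of_degree_eq_zero hnn (by rw [map_add, hDf0, hdeg, add_zero])
  have hE : E = -Df := by
    rw [eq_neg_iff_add_eq_zero, add_comm]
    exact hz
  rw [hE]
  exact (Divisor.principal (K := K) (F := F)).neg_mem ⟨f, hf0, hDf⟩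

/-- `ℓ(D + E) = ℓ(D)` for principal `E` -/
theorem ell_add_principal (D : Divisor K F) {E : Divisor K F}
    (hE : E ∈ Divisor.principal (K := K) (F := F)) : ell (D + E) = ell D := by
  obtain ⟨z, hz, hEz⟩ := hE
  exact ell_add_div hz hEz

/-- `ℓ` only depends on the linear equivalence class -/
theorem ell_congr {D D' : Divisor K F}
    (h : D' - D ∈ Divisor.principal (K := K) (F := F)) : ell D' = ell D := by
  have := ell_add_principal D h
  rwa [add_sub_cancel] at this

/-- **degree zero**: `ℓ(E) = ℓ(0)` if `E` is principal, `ℓ(E) = 0` otherwise -/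
theorem ell_of_degree_zero {E : Divisor K F} (hdeg : Divisor.degree E = 0) :
    (E ∈ Divisor.principal (K := K) (F := F) → ell E = ell (0 : Divisor K F)) ∧
      (E ∉ Divisor.principal (K := K) (F := F) → ell E = 0) := by
  constructor
  · intro hE
    have := ell_add_principal (0 : Divisor K F) hE
    rwa [zero_add] at this
  · intro hE
    have hbot : riemannRochSpace E = ⊥ := by
      rw [eq_bot_iff]
      intro f hf
      rw [Submodule.mem_bot]
      by_contra hf0
      exact hE (mem_principal_of_mem hdeg hf hf0)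
    unfold ell
    rw [hbot]
    exact finrank_bot K F

/-- in degree zero, `ℓ(E) ≤ ℓ(0)` -/
theorem ell_le_of_degree_zero {E : Divisor K F} (hdeg : Divisor.degree E = 0) :
    ell E ≤ ell (0 : Divisor K F) := by
  by_cases hE : E ∈ Divisor.principal (K := K) (F := F)
  · exact ((ell_of_degree_zero hdeg).1 hE).le
  · rw [(ell_of_degree_zero hdeg).2 hE]
    exact Nat.zero_le _

/-- `deg D = 0`, `ℓ(0) = 1`: `ℓ(D) = 1` iff `D` is principal -/
theorem ell_eq_one_iff_of_degree_zero (h0 : ell (0 : Divisor K F) = 1) {E : Divisor K F}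
    (hdeg : Divisor.degree E = 0) :
    ell E = 1 ↔ E ∈ Divisor.principal (K := K) (F := F) := by
  constructor
  · intro h
    by_contra hE
    rw [(ell_of_degree_zero hdeg).2 hE] at h
    exact zero_ne_one h
  · intro hE
    rw [(ell_of_degree_zero hdeg).1 hE, h0]

/-! ### Part 2: consequences of the duality `h¹(D) = ℓ(W - D)` -/

section Dual

variable (W : Divisor K F)
  (hdual : ∀ D : Divisor K F, Module.finrank K (H1 D) = ell (W - D))

include hdual

/-- **Riemann–Roch** -/
theorem riemann_roch (D : Divisor K F) :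
    (ell D : ℤ) - ell (W - D) =
      Divisor.degree D + ell (0 : Divisor K F) - genusFF K F := by
  have := ell_sub_h1 (K := K) (F := F) D
  rw [hdual D] at this
  exact this

/-- `ℓ(W) = g` -/
theorem ell_canonical : ell W = genusFF K F := by
  have := riemann_roch W hdual 0
  rw [sub_zero, map_zero] at this
  have h : (ell W : ℤ) = (genusFF K F : ℤ) := by linarith
  exact_mod_cast h

/-- `deg W = 2g - 2ℓ(0)` -/
theorem degree_canonical :
    Divisor.degree W = 2 * (genusFF K F : ℤ) - 2 * (ell (0 : Divisor K F) : ℤ) := by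
  have h1 := riemann_roch W hdual W
  rw [sub_self, ell_canonical W hdual] at h1
  linarith

/-- **above the canonical degree**: `ℓ(D) = deg D + ℓ(0) - g` -/
theorem ell_of_large {D : Divisor K F} (hD : Divisor.degree W < Divisor.degree D) :
    (ell D : ℤ) = Divisor.degree D + ell (0 : Divisor K F) - genusFF K F := by
  have h1 := riemann_roch W hdual D
  have h2 : ell (W - D) = 0 := ell_eq_zero_of_degree_neg (by rw [map_sub]; linarith)
  rw [h2] at h1
  simpa using h1

/-- **above the canonical degree**: `H¹(D) = 0` -/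
theorem finrank_H1_of_large {D : Divisor K F} (hD : Divisor.degree W < Divisor.degree D) :
    Module.finrank K (H1 D) = 0 := by
  rw [hdual D]
  exact ell_eq_zero_of_degree_neg (by rw [map_sub]; linarith)

/-- **in the canonical degree**: `ℓ(D) = g` if `D ∼ W`, `ℓ(D) = g - ℓ(0)` otherwise -/
theorem ell_of_top {D : Divisor K F} (hD : Divisor.degree D = Divisor.degree W) :
    (D - W ∈ Divisor.principal (K := K) (F := F) → ell D = genusFF K F) ∧
      (D - W ∉ Divisor.principal (K := K) (F := F) →
        (ell D : ℤ) = (genusFF K F : ℤ) - ell (0 : Divisor K F)) := by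
  have h1 := riemann_roch W hdual D
  have hdeg0 : Divisor.degree (W - D) = 0 := by rw [map_sub, hD, sub_self]
  have hneg : W - D = -(D - W) := by abel
  have hW := degree_canonical W hdual
  constructor
  · intro h
    rw [ell_congr h]
    exact ell_canonical W hdual
  · intro h
    have h' : W - D ∉ Divisor.principal (K := K) (F := F) := by
      intro hc
      apply h
      have := (Divisor.principal (K := K) (F := F)).neg_mem hc
      rwa [hneg, neg_neg] at this
    rw [(ell_of_degree_zero hdeg0).2 h'] at h1
    rw [hD, hW] at h1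
    push_cast at h1
    linarith

/-! #### the case `ℓ(0) = 1` (e.g. `K` algebraically closed) -/

variable (h0 : ell (0 : Divisor K F) = 1)

include h0

/-- `deg W = 2g - 2` -/
theorem degree_canonical_one : Divisor.degree W = 2 * (genusFF K F : ℤ) - 2 := by
  have := degree_canonical W hdual
  rw [h0] at this
  simpa using this

/-- **Riemann–Roch** with `ℓ(0) = 1` -/
theorem riemann_roch_one (D : Divisor K F) :
    (ell D : ℤ) - ell (W - D) = Divisor.degree D + 1 - genusFF K F := by
  have := riemann_roch W hdual D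
  rw [h0] at this
  simpa using this

/-- `deg D ≥ 2g - 1` ⟹ `ℓ(D) = deg D + 1 - g` -/
theorem ell_of_large_one {D : Divisor K F}
    (hD : 2 * (genusFF K F : ℤ) - 1 ≤ Divisor.degree D) :
    (ell D : ℤ) = Divisor.degree D + 1 - genusFF K F := by
  have hW := degree_canonical_one W hdual h0
  have := ell_of_large W hdual (D := D) (by rw [hW]; linarith)
  rw [h0] at this
  simpa using this

/-- `deg D = 2g - 2` ⟹ `ℓ(D) = g` if `D ∼ W`, `ℓ(D) = g - 1` otherwise -/
theorem ell_of_top_one {D : Divisor K F}
    (hD : Divisor.degree D = 2 * (genusFF K F : ℤ) - 2) :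
    (D - W ∈ Divisor.principal (K := K) (F := F) → ell D = genusFF K F) ∧
      (D - W ∉ Divisor.principal (K := K) (F := F) →
        (ell D : ℤ) = (genusFF K F : ℤ) - 1) := by
  have hW := degree_canonical_one W hdual h0
  have := ell_of_top W hdual (D := D) (by rw [hW, hD])
  refine ⟨this.1, fun h => ?_⟩
  have h2 := this.2 h
  rw [h0] at h2
  simpa using h2

end Dual

end Fermat.Agent.GJ27.RRCons
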