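/-
GATE-J27 (S27) / node A2 = GJ27-ZCOMB (helper94): **zeta combinatorics of one permutation**.

`τ : Equiv.Perm X` with finitely many fixed points of every power `τ ^ j`, `j ≥ 1` (the Frobenius
acting on the places of a function field over `𝔽̄_p`).  Effective divisors are `X →₀ ℕ`, the degree is
`Finsupp.degree` (all places have degree one).  For a weight `w` which is multiplicative on
`τ`-invariant effective divisors,
`A w m := ∑_{D invariant, deg D = m} w D`,  `c w j := ∑_{x ∈ Fix(τ^j)} w(O_x)^(j / d_x)`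
(`O_x` the orbit sum of `x`, `d_x` its period) satisfy

  `m * A w m = ∑_{j = 1}^{m} c w j * A w (m - j)`     (`mul_A_eq`),

i.e. `X * d⁄dX L_w = L_w * C_w` for `L_w = ∑ A w m X^m`.  For `w = 1`: `T Z'/Z = ∑ N_j T^j`.
Mathlib only.
-/
import Mathlib

set_option autoImplicit false

namespace Fermat.Agent.GJ27.ZComb

open Function Finset

variable {X : Type*} (τ : Equiv.Perm X)

/-- `τ`-invariant effective divisors. -/
def IsInv (D : X →₀ ℕ) : Prop := ∀ x, D (τ x) = D x

theorem isInv_zero : IsInv τ (0 : X →₀ ℕ) := fun _ => rfl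

variable {τ} in
theorem IsInv.add {D D' : X →₀ ℕ} (h : IsInv τ D) (h' : IsInv τ D') : IsInv τ (D + D') := fun x => by
  rw [Finsupp.add_apply, Finsupp.add_apply, h x, h' x]

variable {τ} in
theorem IsInv.nsmul {D : X →₀ ℕ} (h : IsInv τ D) (i : ℕ) : IsInv τ (i • D) := fun x => by
  rw [Finsupp.smul_apply, Finsupp.smul_apply, h x]

variable {τ} in
theorem IsInv.iterate {D : X →₀ ℕ} (h : IsInv τ D) (k : ℕ) (x : X) : D (τ^[k] x) = D x := by
  induction k with
  | zero => rfl
  | succ k ih => rw [Function.iterate_succ_apply', h, ih]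

variable {τ} in
theorem IsInv.tsub {D D' : X →₀ ℕ} (h : IsInv τ D) (h' : IsInv τ D') : IsInv τ (D - D') :=
  fun x => by
    rw [Finsupp.tsub_apply, Finsupp.tsub_apply, h x, h' x]

/-- the invariant effective divisors of degree `m`. -/
def invEff (m : ℕ) : Set (X →₀ ℕ) := {D | IsInv τ D ∧ D.degree = m}

/-- the points of period at most `m`. -/
def perLE (m : ℕ) : Set X := {x | ∃ j, 0 < j ∧ j ≤ m ∧ (τ ^ j) x = x}

theorem perLE_finite (hfin : ∀ j, 0 < j → (fixedPoints ⇑(τ ^ j)).Finite) (m : ℕ) :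
    (perLE τ m).Finite := by
  have : perLE τ m ⊆ ⋃ j ∈ (Finset.Icc 1 m : Set ℕ), fixedPoints ⇑(τ ^ j) := by
    rintro x ⟨j, hj0, hjm, hx⟩
    refine Set.mem_biUnion (x := j) ?_ hx
    simp only [Finset.coe_Icc, Set.mem_Icc]
    exact ⟨hj0, hjm⟩
  refine Set.Finite.subset ?_ this
  refine Set.Finite.biUnion (Finset.finite_toSet _) ?_
  intro j hj
  simp only [Finset.coe_Icc, Set.mem_Icc] at hj
  exact hfin j hj.1

theorem le_degree (D : X →₀ ℕ) (x : X) : D x ≤ D.degree := by
  classical
  by_cases hx : x ∈ D.support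
  · exact Finset.single_le_sum (f := fun y => D y) (fun _ _ => Nat.zero_le _) hx
  · rw [Finsupp.notMem_support_iff.mp hx]
    exact Nat.zero_le _

theorem card_support_le_degree (D : X →₀ ℕ) : D.support.card ≤ D.degree := by
  classical
  unfold Finsupp.degree
  calc D.support.card = ∑ _x ∈ D.support, 1 := by simp
    _ ≤ ∑ x ∈ D.support, D x := Finset.sum_le_sum fun x hx =>
        Nat.one_le_iff_ne_zero.mpr (Finsupp.mem_support_iff.mp hx)

/-- the support of an invariant divisor of degree `m` consists of points of period `≤ m`. -/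
theorem support_subset_perLE {m : ℕ} {D : X →₀ ℕ} (hD : D ∈ invEff τ m) :
    (D.support : Set X) ⊆ perLE τ m := by
  classical
  intro x hx
  have hx' : D x ≠ 0 := Finsupp.mem_support_iff.mp hx
  -- the `m + 1` points `τ^k x`, `k ≤ m`, lie in the support, which has at most `m` elements
  have hmaps : ∀ k ∈ Finset.range (m + 1), τ^[k] x ∈ D.support := by
    intro k _
    rw [Finsupp.mem_support_iff, hD.1.iterate]
    exact hx'
  have hcard : D.support.card < (Finset.range (m + 1)).card := by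
    rw [Finset.card_range]
    have := card_support_le_degree D
    rw [hD.2] at this
    omega
  obtain ⟨a, ha, b, hb, hab, heq⟩ := Finset.exists_ne_map_eq_of_card_lt_of_maps_to hcard hmaps
  rw [Finset.mem_range] at ha hb
  -- wlog a < b
  have key : ∀ a b : ℕ, a < b → b < m + 1 → τ^[a] x = τ^[b] x → x ∈ perLE τ m := by
    intro a b hlt hb heq
    refine ⟨b - a, by omega, by omega, ?_⟩
    have h1 : τ^[a] (τ^[b - a] x) = τ^[a] x := by
      rw [← Function.iterate_add_apply, Nat.add_sub_cancel' hlt.le, heq]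
    have h2 := (τ.injective.iterate a) h1
    rw [Equiv.Perm.coe_pow]
    exact h2
  rcases lt_or_gt_of_ne hab with h | h
  · exact key a b h hb heq
  · exact key b a h ha heq.symm

theorem invEff_finite (hfin : ∀ j, 0 < j → (fixedPoints ⇑(τ ^ j)).Finite) (m : ℕ) :
    (invEff τ m).Finite := by
  classical
  have hP := perLE_finite τ hfin m
  -- inject into functions on the finite set `perLE τ m` with values `≤ m`
  have : Fintype (perLE τ m) := hP.fintype
  let f : (X →₀ ℕ) → (perLE τ m → Fin (m + 1)) := fun D x =>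
    ⟨min (D x) m, by omega⟩
  refine Set.Finite.of_finite_image (f := f) (Set.toFinite _) ?_
  intro D hD D' hD' hff
  ext x
  by_cases hx : x ∈ perLE τ m
  · have h1 := congrFun hff ⟨x, hx⟩
    simp only [f, Fin.mk.injEq] at h1
    have h2 : D x ≤ m := hD.2 ▸ le_degree D x
    have h3 : D' x ≤ m := hD'.2 ▸ le_degree D' x
    omega
  · have h1 : D x = 0 := by
      by_contra h
      exact hx (support_subset_perLE τ hD (Finsupp.mem_support_iff.mpr h))
    have h2 : D' x = 0 := by
      by_contra h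
      exact hx (support_subset_perLE τ hD' (Finsupp.mem_support_iff.mpr h))
    rw [h1, h2]

/-! ### orbit sums -/

/-- the period of a point. -/
noncomputable def per (x : X) : ℕ := minimalPeriod τ x

open Classical in
/-- the orbit of a periodic point, as a finset. -/
noncomputable def orbFin (x : X) : Finset X := (Finset.range (per τ x)).image fun i => τ^[i] x

open Classical in
/-- the orbit sum `O_x = ∑_{y ∈ orbit x} y`. -/
noncomputable def orbSum (x : X) : X →₀ ℕ := ∑ y ∈ orbFin τ x, Finsupp.single y 1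

theorem mem_orbFin {x : X} (hx : 0 < per τ x) {y : X} :
    y ∈ orbFin τ x ↔ ∃ k, τ^[k] x = y := by
  classical
  constructor
  · intro h
    obtain ⟨i, -, hi⟩ := Finset.mem_image.mp h
    exact ⟨i, hi⟩
  · rintro ⟨k, rfl⟩
    refine Finset.mem_image.mpr ⟨k % per τ x, Finset.mem_range.mpr (Nat.mod_lt _ hx), ?_⟩
    exact iterate_mod_minimalPeriod_eq

theorem self_mem_orbFin {x : X} (hx : 0 < per τ x) : x ∈ orbFin τ x :=
  (mem_orbFin τ hx).mpr ⟨0, rfl⟩

theorem card_orbFin (x : X) : (orbFin τ x).card = per τ x := by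
  classical
  unfold orbFin
  rw [Finset.card_image_of_injOn, Finset.card_range]
  intro a ha b hb hab
  have ha' : a < minimalPeriod τ x := by simpa [per] using ha
  have hb' : b < minimalPeriod τ x := by simpa [per] using hb
  exact iterate_injOn_Iio_minimalPeriod ha' hb' hab

theorem apply_mem_orbFin_iff {x : X} (hx : 0 < per τ x) {y : X} :
    τ y ∈ orbFin τ x ↔ y ∈ orbFin τ x := by
  rw [mem_orbFin τ hx, mem_orbFin τ hx]
  constructor
  · rintro ⟨k, hk⟩
    rcases Nat.eq_zero_or_pos k with rfl | hkpos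
    · -- `τ y = x = τ^[d] x`
      refine ⟨per τ x - 1, ?_⟩
      have h1 : τ^[per τ x] x = x := iterate_minimalPeriod
      have h2 : τ (τ^[per τ x - 1] x) = τ y := by
        rw [← Function.iterate_succ_apply' τ, Nat.succ_eq_add_one, Nat.sub_add_cancel hx, h1]
        exact hk
      exact τ.injective h2
    · refine ⟨k - 1, ?_⟩
      have h2 : τ (τ^[k - 1] x) = τ y := by
        rw [← Function.iterate_succ_apply' τ, Nat.succ_eq_add_one, Nat.sub_add_cancel hkpos]
        exact hk
      exact τ.injective h2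
  · rintro ⟨k, rfl⟩
    exact ⟨k + 1, Function.iterate_succ_apply' τ k x⟩

open Classical in
theorem orbSum_apply (x y : X) : orbSum τ x y = if y ∈ orbFin τ x then 1 else 0 := by
  unfold orbSum
  rw [Finsupp.finsetSum_apply]
  simp only [Finsupp.single_apply]
  rw [Finset.sum_ite_eq']

theorem isInv_orbSum {x : X} (hx : 0 < per τ x) : IsInv τ (orbSum τ x) := fun y => by
  classical
  rw [orbSum_apply, orbSum_apply]
  by_cases hy : y ∈ orbFin τ x
  · rw [if_pos hy, if_pos ((apply_mem_orbFin_iff τ hx).mpr hy)]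
  · rw [if_neg hy, if_neg fun h => hy ((apply_mem_orbFin_iff τ hx).mp h)]

theorem degree_orbSum (x : X) : (orbSum τ x).degree = per τ x := by
  classical
  unfold orbSum
  rw [map_sum]
  simp only [Finsupp.degree_single]
  rw [Finset.sum_const, smul_eq_mul, mul_one, card_orbFin]

theorem orbSum_self {x : X} (hx : 0 < per τ x) : orbSum τ x x = 1 := by
  rw [orbSum_apply, if_pos (self_mem_orbFin τ hx)]

/-- an invariant divisor with `i ≤ D x` dominates `i • O_x`. -/
theorem nsmul_orbSum_le {x : X} (hx : 0 < per τ x) {D : X →₀ ℕ} (hD : IsInv τ D) {i : ℕ}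
    (hi : i ≤ D x) : i • orbSum τ x ≤ D := by
  intro y
  rw [Finsupp.smul_apply, orbSum_apply, smul_eq_mul]
  split_ifs with hy
  · obtain ⟨k, rfl⟩ := (mem_orbFin τ hx).mp hy
    rw [hD.iterate, mul_one]
    exact hi
  · rw [mul_zero]
    exact Nat.zero_le _

/-- positivity of the period for fixed points of a positive power. -/
theorem per_pos_of_fixed {j : ℕ} (hj : 0 < j) {x : X} (hx : (τ ^ j) x = x) : 0 < per τ x := by
  have : IsPeriodicPt τ j x := by
    show τ^[j] x = x
    rw [← Equiv.Perm.coe_pow]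
    exact hx
  exact this.minimalPeriod_pos hj

theorem per_dvd_iff {j : ℕ} {x : X} : per τ x ∣ j ↔ (τ ^ j) x = x := by
  rw [per, ← isPeriodicPt_iff_minimalPeriod_dvd]
  show _ ↔ _
  rw [Equiv.Perm.coe_pow]
  rfl

/-! ### the weighted count -/

section Main

variable (hfin : ∀ j, 0 < j → (fixedPoints ⇑(τ ^ j)).Finite)
variable {R : Type*} [CommRing R] (w : (X →₀ ℕ) → R)

/-- the invariant effective divisors of degree `m`, as a finset. -/
noncomputable def invEffFin (m : ℕ) : Finset (X →₀ ℕ) := (invEff_finite τ hfin m).toFinset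

theorem mem_invEffFin {m : ℕ} {D : X →₀ ℕ} :
    D ∈ invEffFin τ hfin m ↔ IsInv τ D ∧ D.degree = m := by
  unfold invEffFin
  rw [Set.Finite.mem_toFinset]
  rfl

/-- the points of period `≤ m`, as a finset. -/
noncomputable def perFin (m : ℕ) : Finset X := (perLE_finite τ hfin m).toFinset

theorem mem_perFin {m : ℕ} {x : X} :
    x ∈ perFin τ hfin m ↔ ∃ j, 0 < j ∧ j ≤ m ∧ (τ ^ j) x = x := by
  unfold perFin
  rw [Set.Finite.mem_toFinset]
  rfl

open Classical in
/-- the fixed points of `τ ^ j`, as a finset (`∅` for `j = 0`). -/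
noncomputable def fixFin (j : ℕ) : Finset X :=
  if hj : 0 < j then (hfin j hj).toFinset else ∅

theorem mem_fixFin {j : ℕ} (hj : 0 < j) {x : X} : x ∈ fixFin τ hfin j ↔ (τ ^ j) x = x := by
  unfold fixFin
  rw [dif_pos hj, Set.Finite.mem_toFinset]
  rfl

/-- the number of fixed points of `τ ^ j`. -/
noncomputable def Nfix (j : ℕ) : ℕ := (fixFin τ hfin j).card

/-- `A w m = ∑_{D invariant effective of degree m} w D`. -/
noncomputable def A (m : ℕ) : R := ∑ D ∈ invEffFin τ hfin m, w D

/-- `c w j = ∑_{x ∈ Fix (τ^j)} w (O_x) ^ (j / d_x)`. -/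
noncomputable def c (j : ℕ) : R := ∑ x ∈ fixFin τ hfin j, w (orbSum τ x) ^ (j / per τ x)

variable {w}

theorem w_nsmul (hw0 : w 0 = 1)
    (hwadd : ∀ D D', IsInv τ D → IsInv τ D' → w (D + D') = w D * w D')
    {D : X →₀ ℕ} (hD : IsInv τ D) (i : ℕ) : w (i • D) = w D ^ i := by
  induction i with
  | zero => rw [zero_smul, pow_zero, hw0]
  | succ i ih => rw [succ_nsmul, hwadd _ _ (hD.nsmul i) hD, ih, pow_succ]

theorem degree_nsmul_orbSum (x : X) (i : ℕ) : (i • orbSum τ x).degree = i * per τ x := by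
  rw [map_nsmul, degree_orbSum, smul_eq_mul]

include hfin in
/-- the divisors with `i ≤ D x`: subtract `i • O_x`. -/
theorem sum_filter_le (hw0 : w 0 = 1)
    (hwadd : ∀ D D', IsInv τ D → IsInv τ D' → w (D + D') = w D * w D')
    {x : X} (hx : 0 < per τ x) (i m : ℕ) :
    (∑ D ∈ invEffFin τ hfin m, if i ≤ D x then w D else 0) =
      if i * per τ x ≤ m then w (orbSum τ x) ^ i * A τ hfin w (m - i * per τ x) else 0 := by
  classical
  have hO : IsInv τ (i • orbSum τ x) := (isInv_orbSum τ hx).nsmul i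
  rw [← Finset.sum_filter]
  split_ifs with him
  · unfold A
    rw [Finset.mul_sum]
    refine Finset.sum_nbij' (fun D => D - i • orbSum τ x) (fun D' => D' + i • orbSum τ x)
      ?_ ?_ ?_ ?_ ?_
    · intro D hD
      rw [Finset.mem_filter, mem_invEffFin] at hD
      obtain ⟨⟨hinv, hdeg⟩, hle⟩ := hD
      rw [mem_invEffFin]
      refine ⟨hinv.tsub hO, ?_⟩
      have hle' := nsmul_orbSum_le τ hx hinv hle
      have h1 : D = (D - i • orbSum τ x) + i • orbSum τ x := (tsub_add_cancel_of_le hle').symm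
      have h2 := congrArg Finsupp.degree h1
      rw [map_add, degree_nsmul_orbSum, hdeg] at h2
      omega
    · intro D' hD'
      rw [mem_invEffFin] at hD'
      rw [Finset.mem_filter, mem_invEffFin]
      refine ⟨⟨hD'.1.add hO, ?_⟩, ?_⟩
      · rw [map_add, degree_nsmul_orbSum, hD'.2]
        omega
      · rw [Finsupp.add_apply, Finsupp.smul_apply, orbSum_self τ hx, smul_eq_mul, mul_one]
        exact Nat.le_add_left _ _
    · intro D hD
      rw [Finset.mem_filter, mem_invEffFin] at hD
      exact tsub_add_cancel_of_le (nsmul_orbSum_le τ hx hD.1.1 hD.2)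
    · intro D' _
      exact add_tsub_cancel_right _ _
    · intro D hD
      rw [Finset.mem_filter, mem_invEffFin] at hD
      obtain ⟨⟨hinv, -⟩, hle⟩ := hD
      have hle' := nsmul_orbSum_le τ hx hinv hle
      have h1 : D = (D - i • orbSum τ x) + i • orbSum τ x := (tsub_add_cancel_of_le hle').symm
      conv_lhs => rw [h1]
      rw [hwadd _ _ (hinv.tsub hO) hO, w_nsmul τ hw0 hwadd (isInv_orbSum τ hx), mul_comm]
  · refine Finset.sum_eq_zero fun D hD => ?_
    exfalso
    rw [Finset.mem_filter, mem_invEffFin] at hD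
    obtain ⟨⟨hinv, hdeg⟩, hle⟩ := hD
    have hle' := nsmul_orbSum_le τ hx hinv hle
    have h1 : D = (D - i • orbSum τ x) + i • orbSum τ x := (tsub_add_cancel_of_le hle').symm
    have h2 := congrArg Finsupp.degree h1
    rw [map_add, degree_nsmul_orbSum, hdeg] at h2
    omega

theorem nat_eq_sum_ite {n m : ℕ} (h : n ≤ m) :
    n = ∑ i ∈ Finset.Icc 1 m, if i ≤ n then 1 else 0 := by
  rw [Finset.sum_boole]
  have : (Finset.Icc 1 m).filter (fun i => i ≤ n) = Finset.Icc 1 n := by
    ext i
    simp only [Finset.mem_filter, Finset.mem_Icc]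
    omega
  rw [this, Nat.card_Icc]
  simp

include hfin in
theorem per_pos_of_mem_perFin {m : ℕ} {x : X} (hx : x ∈ perFin τ hfin m) : 0 < per τ x := by
  obtain ⟨j, hj, -, hjx⟩ := (mem_perFin τ hfin).mp hx
  exact per_pos_of_fixed τ hj hjx

theorem degree_eq_sum_perFin {m : ℕ} {D : X →₀ ℕ} (hD : D ∈ invEffFin τ hfin m) :
    m = ∑ x ∈ perFin τ hfin m, D x := by
  classical
  have hD' := (mem_invEffFin τ hfin).mp hD
  have hsub : D.support ⊆ perFin τ hfin m := by
    intro x hx
    have := support_subset_perLE τ (m := m) hD' (by exact_mod_cast hx)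
    exact (mem_perFin τ hfin).mpr this
  calc m = D.degree := hD'.2.symm
    _ = ∑ x ∈ D.support, D x := rfl
    _ = ∑ x ∈ perFin τ hfin m, D x :=
      Finset.sum_subset hsub fun x _ hx => Finsupp.notMem_support_iff.mp hx

/-- step 1–4 of the double count. -/
theorem mul_A_eq_aux (hw0 : w 0 = 1)
    (hwadd : ∀ D D', IsInv τ D → IsInv τ D' → w (D + D') = w D * w D') (m : ℕ) :
    (m : R) * A τ hfin w m =
      ∑ x ∈ perFin τ hfin m, ∑ i ∈ Finset.Icc 1 m,
        if i * per τ x ≤ m then w (orbSum τ x) ^ i * A τ hfin w (m - i * per τ x) else 0 := by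
  classical
  have h1 : (m : R) * A τ hfin w m =
      ∑ D ∈ invEffFin τ hfin m, ∑ x ∈ perFin τ hfin m, ∑ i ∈ Finset.Icc 1 m,
        if i ≤ D x then w D else 0 := by
    unfold A
    rw [Finset.mul_sum]
    refine Finset.sum_congr rfl fun D hD => ?_
    have hm := degree_eq_sum_perFin τ hfin hD
    have hDx : ∀ x, D x ≤ m := fun x => by
      have := le_degree D x
      rwa [((mem_invEffFin τ hfin).mp hD).2] at this
    have h2 : (m : R) = ∑ x ∈ perFin τ hfin m, ∑ i ∈ Finset.Icc 1 m,
        (if i ≤ D x then (1 : R) else 0) := by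
      conv_lhs => rw [hm]
      rw [Nat.cast_sum]
      refine Finset.sum_congr rfl fun x _ => ?_
      conv_lhs => rw [nat_eq_sum_ite (hDx x)]
      rw [Nat.cast_sum]
      refine Finset.sum_congr rfl fun i _ => ?_
      split_ifs <;> simp
    rw [h2, Finset.sum_mul]
    refine Finset.sum_congr rfl fun x _ => ?_
    rw [Finset.sum_mul]
    refine Finset.sum_congr rfl fun i _ => ?_
    split_ifs <;> simp
  rw [h1, Finset.sum_comm]
  refine Finset.sum_congr rfl fun x hx => ?_
  rw [Finset.sum_comm]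
  refine Finset.sum_congr rfl fun i _ => ?_
  exact sum_filter_le τ hfin hw0 hwadd (per_pos_of_mem_perFin τ hfin hx) i m

include hfin in
theorem fixFin_eq_filter {m j : ℕ} (hj : j ∈ Finset.Icc 1 m) :
    fixFin τ hfin j = by
      classical exact (perFin τ hfin m).filter fun x => (τ ^ j) x = x := by
  classical
  rw [Finset.mem_Icc] at hj
  ext x
  rw [mem_fixFin τ hfin (by omega), Finset.mem_filter, mem_perFin]
  constructor
  · intro h
    exact ⟨⟨j, by omega, hj.2, h⟩, h⟩
  · exact fun h => h.2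

/-- **The weighted log-derivative identity**, coefficientwise:
`m * A w m = ∑_{j=1}^{m} c w j * A w (m - j)`. -/
theorem mul_A_eq (hw0 : w 0 = 1)
    (hwadd : ∀ D D', IsInv τ D → IsInv τ D' → w (D + D') = w D * w D') (m : ℕ) :
    (m : R) * A τ hfin w m =
      ∑ j ∈ Finset.Icc 1 m, c τ hfin w j * A τ hfin w (m - j) := by
  classical
  rw [mul_A_eq_aux τ hfin hw0 hwadd m]
  -- left side as a sum over pairs
  have hL : (∑ x ∈ perFin τ hfin m, ∑ i ∈ Finset.Icc 1 m,
        if i * per τ x ≤ m then w (orbSum τ x) ^ i * A τ hfin w (m - i * per τ x) else 0) =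
      ∑ q ∈ ((perFin τ hfin m) ×ˢ (Finset.Icc 1 m)).filter (fun q => q.2 * per τ q.1 ≤ m),
        w (orbSum τ q.1) ^ q.2 * A τ hfin w (m - q.2 * per τ q.1) := by
    rw [Finset.sum_filter, Finset.sum_product]
  have hR : (∑ j ∈ Finset.Icc 1 m, c τ hfin w j * A τ hfin w (m - j)) =
      ∑ q ∈ ((Finset.Icc 1 m) ×ˢ (perFin τ hfin m)).filter (fun q => (τ ^ q.1) q.2 = q.2),
        w (orbSum τ q.2) ^ (q.1 / per τ q.2) * A τ hfin w (m - q.1) := by
    rw [Finset.sum_filter, Finset.sum_product]
    refine Finset.sum_congr rfl fun j hj => ?_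
    unfold c
    rw [fixFin_eq_filter τ hfin hj, Finset.sum_mul, Finset.sum_filter]
  rw [hL, hR]
  refine Finset.sum_nbij' (fun q => (q.2 * per τ q.1, q.1)) (fun q => (q.2, q.1 / per τ q.2))
    ?_ ?_ ?_ ?_ ?_
  · rintro ⟨x, i⟩ hq
    simp only [Finset.mem_filter, Finset.mem_product, Finset.mem_Icc] at hq ⊢
    obtain ⟨⟨hx, hi1, -⟩, hle⟩ := hq
    have hd := per_pos_of_mem_perFin τ hfin hx
    refine ⟨⟨⟨?_, hle⟩, hx⟩, ?_⟩
    · exact Nat.mul_pos hi1 hd
    · exact (per_dvd_iff τ).mp (Dvd.intro_left i rfl)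
  · rintro ⟨j, x⟩ hq
    simp only [Finset.mem_filter, Finset.mem_product, Finset.mem_Icc] at hq ⊢
    obtain ⟨⟨⟨hj1, hjm⟩, hx⟩, hfix⟩ := hq
    have hd := per_pos_of_mem_perFin τ hfin hx
    have hdvd : per τ x ∣ j := (per_dvd_iff τ).mpr hfix
    have hdj : per τ x ≤ j := Nat.le_of_dvd hj1 hdvd
    refine ⟨⟨hx, ?_, ?_⟩, ?_⟩
    · exact (Nat.one_le_div_iff hd).mpr hdj
    · exact (Nat.div_le_self j _).trans hjm
    · rw [Nat.div_mul_cancel hdvd]
      exact hjm
  · rintro ⟨x, i⟩ hq
    simp only [Finset.mem_filter, Finset.mem_product, Finset.mem_Icc] at hq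
    have hd := per_pos_of_mem_perFin τ hfin hq.1.1
    simp only [Prod.mk.injEq, true_and]
    exact Nat.mul_div_cancel i hd
  · rintro ⟨j, x⟩ hq
    simp only [Finset.mem_filter, Finset.mem_product, Finset.mem_Icc] at hq
    have hdvd : per τ x ∣ j := (per_dvd_iff τ).mpr hq.2
    simp only [Prod.mk.injEq, and_true]
    exact Nat.div_mul_cancel hdvd
  · rintro ⟨x, i⟩ hq
    simp only [Finset.mem_filter, Finset.mem_product, Finset.mem_Icc] at hq
    have hd := per_pos_of_mem_perFin τ hfin hq.1.1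
    simp only
    rw [Nat.mul_div_cancel i hd]

theorem invEffFin_zero : invEffFin τ hfin 0 = {0} := by
  ext D
  rw [mem_invEffFin, Finset.mem_singleton]
  constructor
  · rintro ⟨-, h⟩
    exact (Finsupp.degree_eq_zero_iff D).mp h
  · rintro rfl
    exact ⟨isInv_zero τ, map_zero _⟩

theorem A_zero (hw0 : w 0 = 1) : A τ hfin w 0 = 1 := by
  unfold A
  rw [invEffFin_zero, Finset.sum_singleton, hw0]

/-! ### power series form -/

open PowerSeries in
/-- `L_w = ∑_m A w m X^m`. -/
noncomputable def Lser (w : (X →₀ ℕ) → R) : PowerSeries R := PowerSeries.mk (A τ hfin w)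

open PowerSeries in
/-- `C_w = ∑_{j ≥ 1} c w j X^j`. -/
noncomputable def Cser (w : (X →₀ ℕ) → R) : PowerSeries R :=
  PowerSeries.mk fun j => if j = 0 then 0 else c τ hfin w j

theorem constantCoeff_Lser (hw0 : w 0 = 1) :
    PowerSeries.constantCoeff (Lser τ hfin w) = 1 := by
  rw [← PowerSeries.coeff_zero_eq_constantCoeff_apply, Lser, PowerSeries.coeff_mk,
    A_zero τ hfin hw0]

theorem sum_range_succ_eq_sum_Icc {M : Type*} [AddCommMonoid M] (f : ℕ → M) (n : ℕ)
    (h0 : f 0 = 0) : ∑ k ∈ Finset.range (n + 1), f k = ∑ k ∈ Finset.Icc 1 n, f k := by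
  rw [Finset.range_eq_Ico, Finset.sum_eq_sum_Ico_succ_bot (Nat.succ_pos n), h0, zero_add]
  rfl

open PowerSeries in
theorem coeff_Lser_mul_Cser (m : ℕ) :
    PowerSeries.coeff m (Lser τ hfin w * Cser τ hfin w) =
      ∑ k ∈ Finset.Icc 1 m, c τ hfin w k * A τ hfin w (m - k) := by
  rw [mul_comm (Lser τ hfin w), PowerSeries.coeff_mul,
    Finset.Nat.sum_antidiagonal_eq_sum_range_succ
      (fun a b => PowerSeries.coeff a (Cser τ hfin w) * PowerSeries.coeff b (Lser τ hfin w))]
  simp only [Lser, Cser, PowerSeries.coeff_mk]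
  rw [sum_range_succ_eq_sum_Icc _ _ (by simp)]
  refine Finset.sum_congr rfl fun k hk => ?_
  rw [Finset.mem_Icc] at hk
  rw [if_neg (by omega)]

open PowerSeries in
/-- **The weighted log-derivative identity**: `X * L_w' = L_w * C_w`. -/
theorem X_mul_derivative_Lser (hw0 : w 0 = 1)
    (hwadd : ∀ D D', IsInv τ D → IsInv τ D' → w (D + D') = w D * w D') :
    (PowerSeries.X : PowerSeries R) * d⁄dX R (Lser τ hfin w) =
      Lser τ hfin w * Cser τ hfin w := by
  ext m
  rw [coeff_Lser_mul_Cser, ← mul_A_eq τ hfin hw0 hwadd m]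
  cases m with
  | zero => simp
  | succ m =>
    rw [PowerSeries.coeff_succ_X_mul, PowerSeries.coeff_derivative, Lser, PowerSeries.coeff_mk,
      mul_comm]
    push_cast
    ring

end Main

end Fermat.Agent.GJ27.ZComb
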