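/-
GATE-J27, node A2 (GJ27-ZCOMB), part 2 (helper94).  Mathlib only (on top of `GJ27/ZComb.lean`).

* the unweighted specialisation `w = 1`: `Z τ hfin : PowerSeries ℤ` with
  `coeff m Z = #(τ-invariant effective divisors of degree m)` and
  `X * Z' = Z * ∑_{j ≥ 1} N_j X^j`, `N_j = #Fix(τ^j)`;
* uniqueness of the solution of `X * F' = F * C` with given constant coefficient;
* additivity of the logarithmic derivative (products, inverses by cancellation);
* powers: `Fix((τ^n)^j) = Fix(τ^(n*j))`, so `N_j(τ^n) = N_{nj}(τ)`.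
-/
import Fermat.Agent.GJ27.ZComb

namespace Fermat.Agent.GJ27.ZComb

open Function Finset

variable {X : Type*} (τ : Equiv.Perm X)

section Extra

variable (hfin : ∀ j, 0 < j → (fixedPoints ⇑(τ ^ j)).Finite)

/-! ### the unweighted case -/

theorem A_one (R : Type*) [CommRing R] (m : ℕ) :
    A τ hfin (fun _ => (1 : R)) m = ((invEffFin τ hfin m).card : R) := by
  unfold A
  simp

theorem c_one (R : Type*) [CommRing R] (j : ℕ) :
    c τ hfin (fun _ => (1 : R)) j = (Nfix τ hfin j : R) := by
  unfold c Nfix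
  simp

theorem constantCoeff_Cser {R : Type*} [CommRing R] (w : (X →₀ ℕ) → R) :
    PowerSeries.constantCoeff (Cser τ hfin w) = 0 := by
  rw [← PowerSeries.coeff_zero_eq_constantCoeff_apply, Cser, PowerSeries.coeff_mk, if_pos rfl]

/-- The zeta series of `τ` over a commutative ring `R`:
`∑_m #(τ-invariant effective divisors of degree m) X^m`. -/
noncomputable def ZR (R : Type*) [CommRing R] : PowerSeries R := Lser τ hfin (fun _ => (1 : R))

/-- `∑_{j ≥ 1} #Fix(τ^j) X^j` over a commutative ring `R`. -/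
noncomputable def NserR (R : Type*) [CommRing R] : PowerSeries R :=
  PowerSeries.mk fun j => if j = 0 then 0 else (Nfix τ hfin j : R)

theorem coeff_ZR (R : Type*) [CommRing R] (m : ℕ) :
    PowerSeries.coeff m (ZR τ hfin R) = ((invEffFin τ hfin m).card : R) := by
  rw [ZR, Lser, PowerSeries.coeff_mk, A_one]

theorem constantCoeff_ZR (R : Type*) [CommRing R] :
    PowerSeries.constantCoeff (ZR τ hfin R) = 1 :=
  constantCoeff_Lser τ hfin rfl

theorem Cser_one (R : Type*) [CommRing R] :
    Cser τ hfin (fun _ => (1 : R)) = NserR τ hfin R := by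
  ext j
  rw [Cser, NserR, PowerSeries.coeff_mk, PowerSeries.coeff_mk, c_one]

theorem constantCoeff_NserR (R : Type*) [CommRing R] :
    PowerSeries.constantCoeff (NserR τ hfin R) = 0 := by
  rw [← Cser_one]
  exact constantCoeff_Cser τ hfin _

open PowerSeries in
/-- `X * Z' = Z * ∑_{j ≥ 1} N_j X^j` over any commutative ring. -/
theorem X_mul_derivative_ZR (R : Type*) [CommRing R] :
    (PowerSeries.X : PowerSeries R) * d⁄dX R (ZR τ hfin R) = ZR τ hfin R * NserR τ hfin R := by
  rw [← Cser_one]
  exact X_mul_derivative_Lser τ hfin rfl (fun _ _ _ _ => (mul_one _).symm)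

/-- The zeta series of `τ` (over `ℤ`). -/
noncomputable def Z : PowerSeries ℤ := ZR τ hfin ℤ

/-- `∑_{j ≥ 1} #Fix(τ^j) X^j` (over `ℤ`). -/
noncomputable def Nser : PowerSeries ℤ := NserR τ hfin ℤ

theorem coeff_Z (m : ℕ) :
    PowerSeries.coeff m (Z τ hfin) = ((invEffFin τ hfin m).card : ℤ) :=
  coeff_ZR τ hfin ℤ m

theorem coeff_Nser (j : ℕ) :
    PowerSeries.coeff j (Nser τ hfin) = if j = 0 then 0 else (Nfix τ hfin j : ℤ) := by
  rw [Nser, NserR, PowerSeries.coeff_mk]

theorem constantCoeff_Z : PowerSeries.constantCoeff (Z τ hfin) = 1 :=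
  constantCoeff_ZR τ hfin ℤ

theorem constantCoeff_Nser : PowerSeries.constantCoeff (Nser τ hfin) = 0 :=
  constantCoeff_NserR τ hfin ℤ

open PowerSeries in
/-- **`T Z'(T) = Z(T) ∑_{j ≥ 1} N_j T^j`.** -/
theorem X_mul_derivative_Z :
    (PowerSeries.X : PowerSeries ℤ) * d⁄dX ℤ (Z τ hfin) = Z τ hfin * Nser τ hfin :=
  X_mul_derivative_ZR τ hfin ℤ

theorem map_ZR (R : Type*) [CommRing R] :
    PowerSeries.map (Int.castRingHom R) (Z τ hfin) = ZR τ hfin R := by
  ext m
  rw [PowerSeries.coeff_map, coeff_Z, coeff_ZR]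
  simp

theorem map_NserR (R : Type*) [CommRing R] :
    PowerSeries.map (Int.castRingHom R) (Nser τ hfin) = NserR τ hfin R := by
  ext j
  rw [PowerSeries.coeff_map, coeff_Nser, NserR, PowerSeries.coeff_mk]
  split_ifs <;> simp

/-! ### powers -/

include hfin in
theorem hfin_pow {n : ℕ} (hn : 0 < n) :
    ∀ j, 0 < j → (fixedPoints ⇑((τ ^ n) ^ j)).Finite := fun j hj => by
  rw [← pow_mul]
  exact hfin (n * j) (Nat.mul_pos hn hj)

theorem fixFin_pow {n : ℕ} (hn : 0 < n) (j : ℕ) :
    fixFin (τ ^ n) (hfin_pow τ hfin hn) j = fixFin τ hfin (n * j) := by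
  rcases Nat.eq_zero_or_pos j with rfl | hj
  · simp [fixFin]
  · ext x
    rw [mem_fixFin _ _ hj, mem_fixFin _ _ (Nat.mul_pos hn hj), ← pow_mul]

/-- `N_j(τ^n) = N_{nj}(τ)`. -/
theorem Nfix_pow {n : ℕ} (hn : 0 < n) (j : ℕ) :
    Nfix (τ ^ n) (hfin_pow τ hfin hn) j = Nfix τ hfin (n * j) := by
  unfold Nfix
  rw [fixFin_pow τ hfin hn]

theorem coeff_Nser_pow {n : ℕ} (hn : 0 < n) (j : ℕ) :
    PowerSeries.coeff j (Nser (τ ^ n) (hfin_pow τ hfin hn)) =
      if j = 0 then 0 else (Nfix τ hfin (n * j) : ℤ) := by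
  rw [coeff_Nser, Nfix_pow τ hfin hn]

open PowerSeries in
/-- `T Z_n'(T) = Z_n(T) ∑_{j ≥ 1} N_{nj} T^j` for `Z_n` = the zeta series of `τ^n`. -/
theorem X_mul_derivative_Z_pow {n : ℕ} (hn : 0 < n) :
    (PowerSeries.X : PowerSeries ℤ) * d⁄dX ℤ (Z (τ ^ n) (hfin_pow τ hfin hn)) =
      Z (τ ^ n) (hfin_pow τ hfin hn) *
        PowerSeries.mk fun j => if j = 0 then 0 else (Nfix τ hfin (n * j) : ℤ) := by
  rw [X_mul_derivative_Z]
  congr 1
  ext j
  rw [coeff_Nser_pow τ hfin hn, PowerSeries.coeff_mk]

end Extra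

/-! ### the differential equation `X * F' = F * C` -/

section ODE

open PowerSeries

variable {R : Type*} [CommRing R]

theorem coeff_mul_of_constantCoeff_eq_zero {F C : PowerSeries R}
    (hC : PowerSeries.constantCoeff C = 0) (n : ℕ) :
    PowerSeries.coeff n (F * C) =
      ∑ k ∈ Finset.Icc 1 n, PowerSeries.coeff k C * PowerSeries.coeff (n - k) F := by
  rw [mul_comm F C, PowerSeries.coeff_mul,
    Finset.Nat.sum_antidiagonal_eq_sum_range_succ
      (fun a b => PowerSeries.coeff a C * PowerSeries.coeff b F),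
    sum_range_succ_eq_sum_Icc _ _ (by
      rw [PowerSeries.coeff_zero_eq_constantCoeff_apply, hC, zero_mul])]

/-- Coefficient form of `X * F' = F * C` when `C` has no constant term. -/
theorem coeff_of_X_mul_derivative_eq {F C : PowerSeries R}
    (hC : PowerSeries.constantCoeff C = 0) (hF : PowerSeries.X * d⁄dX R F = F * C) (n : ℕ) :
    (n : R) * PowerSeries.coeff n F =
      ∑ k ∈ Finset.Icc 1 n, PowerSeries.coeff k C * PowerSeries.coeff (n - k) F := by
  rw [← coeff_mul_of_constantCoeff_eq_zero hC, ← hF]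
  cases n with
  | zero => simp
  | succ n =>
    rw [PowerSeries.coeff_succ_X_mul, PowerSeries.coeff_derivative, mul_comm]
    push_cast
    ring

/-- **Uniqueness** for `X * F' = F * C`: if positive integers are not zero divisors in `R`,
the solution is determined by its constant coefficient. -/
theorem eq_of_X_mul_derivative_eq'
    (hreg : ∀ n : ℕ, 0 < n → ∀ a : R, (n : R) * a = 0 → a = 0)
    {F G C : PowerSeries R} (hC : PowerSeries.constantCoeff C = 0)
    (h0 : PowerSeries.constantCoeff F = PowerSeries.constantCoeff G)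
    (hF : PowerSeries.X * d⁄dX R F = F * C) (hG : PowerSeries.X * d⁄dX R G = G * C) :
    F = G := by
  ext n
  induction n using Nat.strong_induction_on with
  | _ n ih =>
    rcases Nat.eq_zero_or_pos n with rfl | hn
    · rw [PowerSeries.coeff_zero_eq_constantCoeff_apply,
        PowerSeries.coeff_zero_eq_constantCoeff_apply, h0]
    · have hFn := coeff_of_X_mul_derivative_eq hC hF n
      have hGn := coeff_of_X_mul_derivative_eq hC hG n
      have hsum : ∑ k ∈ Finset.Icc 1 n, PowerSeries.coeff k C * PowerSeries.coeff (n - k) F =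
          ∑ k ∈ Finset.Icc 1 n, PowerSeries.coeff k C * PowerSeries.coeff (n - k) G := by
        refine Finset.sum_congr rfl fun k hk => ?_
        rw [Finset.mem_Icc] at hk
        rw [ih (n - k) (by omega)]
      have hsub : (n : R) * (PowerSeries.coeff n F - PowerSeries.coeff n G) = 0 := by
        rw [mul_sub, hFn, hGn, hsum, sub_self]
      exact sub_eq_zero.mp (hreg n hn _ hsub)

/-- **Uniqueness** for `X * F' = F * C` over a domain of characteristic zero. -/
theorem eq_of_X_mul_derivative_eq [IsDomain R] [CharZero R]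
    {F G C : PowerSeries R} (hC : PowerSeries.constantCoeff C = 0)
    (h0 : PowerSeries.constantCoeff F = PowerSeries.constantCoeff G)
    (hF : PowerSeries.X * d⁄dX R F = F * C) (hG : PowerSeries.X * d⁄dX R G = G * C) :
    F = G := by
  refine eq_of_X_mul_derivative_eq' (fun n hn a h => ?_) hC h0 hF hG
  rcases mul_eq_zero.mp h with h | h
  · exact absurd (Nat.cast_eq_zero.mp h) hn.ne'
  · exact h

/-- Additivity of the logarithmic derivative on products. -/
theorem X_mul_derivative_mul {F G C D : PowerSeries R}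
    (hF : PowerSeries.X * d⁄dX R F = F * C) (hG : PowerSeries.X * d⁄dX R G = G * D) :
    PowerSeries.X * d⁄dX R (F * G) = (F * G) * (C + D) := by
  have h : d⁄dX R (F * G) = F * d⁄dX R G + G * d⁄dX R F := by
    rw [Derivation.leibniz]
    rfl
  rw [h]
  calc PowerSeries.X * (F * d⁄dX R G + G * d⁄dX R F)
      = F * (PowerSeries.X * d⁄dX R G) + G * (PowerSeries.X * d⁄dX R F) := by ring
    _ = F * G * (C + D) := by rw [hF, hG]; ring

/-- The logarithmic derivative of a quotient: if `H * G = F` (`G` a non-zero-divisor, e.g. with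
constant coefficient `1` over a domain), then `H` has logarithmic derivative `C - D`. -/
theorem X_mul_derivative_of_mul_eq [IsDomain R] {F G H C D : PowerSeries R} (hG0 : G ≠ 0)
    (hHG : H * G = F)
    (hF : PowerSeries.X * d⁄dX R F = F * C) (hG : PowerSeries.X * d⁄dX R G = G * D) :
    PowerSeries.X * d⁄dX R H = H * (C - D) := by
  have h : d⁄dX R (H * G) = H * d⁄dX R G + G * d⁄dX R H := by
    rw [Derivation.leibniz]
    rfl
  have h1 : PowerSeries.X * d⁄dX R (H * G) = H * G * C := by rw [hHG]; exact hF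
  rw [h] at h1
  have h2 : G * (PowerSeries.X * d⁄dX R H) = G * (H * (C - D)) := by
    calc G * (PowerSeries.X * d⁄dX R H)
        = PowerSeries.X * (H * d⁄dX R G + G * d⁄dX R H) - H * (PowerSeries.X * d⁄dX R G) := by
          ring
      _ = H * G * C - H * (G * D) := by rw [h1, hG]
      _ = G * (H * (C - D)) := by ring
  exact mul_left_cancel₀ hG0 h2

/-! ### linear factors -/

/-- `∑_{j ≥ 1} -(a^j) X^j`, the logarithmic derivative of `1 - aX`. -/
noncomputable def linLog (a : R) : PowerSeries R :=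
  PowerSeries.mk fun j => if j = 0 then 0 else -a ^ j

theorem coeff_linLog (a : R) (j : ℕ) :
    PowerSeries.coeff j (linLog a) = if j = 0 then 0 else -a ^ j := by
  rw [linLog, PowerSeries.coeff_mk]

theorem constantCoeff_linLog (a : R) : PowerSeries.constantCoeff (linLog a) = 0 := by
  rw [← PowerSeries.coeff_zero_eq_constantCoeff_apply, coeff_linLog, if_pos rfl]

theorem X_mul_derivative_one_sub (a : R) :
    PowerSeries.X * d⁄dX R (1 - PowerSeries.C a * PowerSeries.X) =
      (1 - PowerSeries.C a * PowerSeries.X) * linLog a := by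
  have hd : d⁄dX R (1 - PowerSeries.C a * PowerSeries.X) = - PowerSeries.C a := by
    rw [map_sub, Derivation.leibniz]
    simp
  rw [hd]
  ext n
  rw [sub_mul, one_mul, map_sub, mul_assoc, PowerSeries.coeff_C_mul]
  cases n with
  | zero =>
    simp [linLog]
  | succ n =>
    rw [PowerSeries.coeff_succ_X_mul, PowerSeries.coeff_succ_X_mul, linLog]
    simp only [PowerSeries.coeff_mk]
    rcases Nat.eq_zero_or_pos n with rfl | hn
    · simp
    · rw [if_neg (by omega), if_neg (by omega)]
      simp [PowerSeries.coeff_C, hn.ne', pow_succ]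
      ring

theorem X_mul_derivative_one : PowerSeries.X * d⁄dX R (1 : PowerSeries R) = 1 * 0 := by
  simp

/-- Additivity of the logarithmic derivative on finite products. -/
theorem X_mul_derivative_prod {ι : Type*} (s : Finset ι) (F C : ι → PowerSeries R)
    (h : ∀ i ∈ s, PowerSeries.X * d⁄dX R (F i) = F i * C i) :
    PowerSeries.X * d⁄dX R (∏ i ∈ s, F i) = (∏ i ∈ s, F i) * ∑ i ∈ s, C i := by
  classical
  induction s using Finset.induction_on with
  | empty => simp
  | insert i s hi ih =>
    rw [Finset.prod_insert hi, Finset.sum_insert hi]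
    exact X_mul_derivative_mul (h i (Finset.mem_insert_self i s))
      (ih fun j hj => h j (Finset.mem_insert_of_mem hj))

/-- `∏ (1 - a_i X)` has logarithmic derivative `-∑_{j ≥ 1} (∑_i a_i^j) X^j`. -/
theorem X_mul_derivative_prod_one_sub {ι : Type*} (s : Finset ι) (a : ι → R) :
    PowerSeries.X * d⁄dX R (∏ i ∈ s, (1 - PowerSeries.C (a i) * PowerSeries.X)) =
      (∏ i ∈ s, (1 - PowerSeries.C (a i) * PowerSeries.X)) * ∑ i ∈ s, linLog (a i) :=
  X_mul_derivative_prod s _ _ fun i _ => X_mul_derivative_one_sub (a i)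

theorem coeff_sum_linLog {ι : Type*} (s : Finset ι) (a : ι → R) (j : ℕ) :
    PowerSeries.coeff j (∑ i ∈ s, linLog (a i)) = if j = 0 then 0 else -∑ i ∈ s, a i ^ j := by
  rw [map_sum]
  simp only [coeff_linLog]
  split_ifs
  · simp
  · rw [Finset.sum_neg_distrib]

theorem constantCoeff_sum_linLog {ι : Type*} (s : Finset ι) (a : ι → R) :
    PowerSeries.constantCoeff (∑ i ∈ s, linLog (a i)) = 0 := by
  rw [← PowerSeries.coeff_zero_eq_constantCoeff_apply, coeff_sum_linLog, if_pos rfl]

end ODE

end Fermat.Agent.GJ27.ZComb
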