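/-
GATE-J27 (S27) / VOCABULARY PIN (helper27, gate lead).  Definitions only (plus two tiny
constructions on `FrobStr`); design = board 5420.

Route: `|Pic⁰(F)[ℓ^k]| = |Pic⁰(Ft)[ℓ^k]| = ℓ^(2gk)` where `Ft / k` is a good reduction of `F / K`
to an algebraic closure `k` of a finite field (abstract frame `R : RedData K F k Ft`,
`H : LSpaceHyp R g c` of `GJ/J1/Defs`, `GJ/S37/LSpaceRed`), and the count over `k` comes from the
zeta function of the Frobenius structure `FrobStr`.

* `FrobStr p k Ft` : a `q`-Frobenius (`q = p ^ f`) on the function field `Ft / k`: a ring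
                     automorphism `σ` of `Ft` with `σ a = a ^ q` on constants, every element of `Ft`
                     fixed by a power of `σ`  (`Ft = F₀ ⊗_{F_q} k`, `σ = 1 ⊗ Frob_q`).
* `SpecData K F ℓ` : the output of the specialisation side (B): residue characteristic `p ≠ ℓ`,
                     the special fibre `Ft / k` with the prelude Place API, the reduction datum with
                     `LSpaceHyp R (genusFF K F) c`, a generator `x₀` of `Ft / k`, a Frobenius.
* `SpecStmt`, `TorsIsoStmt`, `CountStmt` : the three binders of the TOP assembly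
                     (`GJ27/Top.lean : s27_of_binders`).
-/
import Mathlib
import Fermat.Agent.GJ.S37.LSpaceRed
import Fermat.Agent.S24.Gen

set_option autoImplicit false

noncomputable section

open AlgebraicCurve

namespace Fermat.Agent.GJ27

open Fermat.Agent.RRh45 Fermat.Agent.GJ.J1 Fermat.Agent.GJ.S37LSpace Fermat.Agent.S24

universe u v

/-- A `q`-Frobenius structure (`q = p ^ f`) on a function field `Ft / k`. -/
structure FrobStr (p : ℕ) (k Ft : Type*) [Field k] [Field Ft] [Algebra k Ft] where
  /-- `q = p ^ f` -/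
  f : ℕ
  f_pos : 0 < f
  /-- the Frobenius automorphism of `Ft` (identity on the `F_q`-model, `q`-th power on constants) -/
  σ : Ft ≃+* Ft
  σ_algebraMap : ∀ a : k, σ (algebraMap k Ft a) = algebraMap k Ft (a ^ (p ^ f))
  exists_pow_fixed : ∀ x : Ft, ∃ n : ℕ, 0 < n ∧ (σ ^ n) x = x

namespace FrobStr

variable {p : ℕ} {k Ft : Type*} [Field k] [Field Ft] [Algebra k Ft]

/-- the cardinality `q = p ^ f` of the field of definition. -/
def q (Φ : FrobStr p k Ft) : ℕ := p ^ Φ.f

theorem pow_σ_algebraMap (Φ : FrobStr p k Ft) (n : ℕ) (a : k) :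
    (Φ.σ ^ n) (algebraMap k Ft a) = algebraMap k Ft (a ^ (p ^ (Φ.f * n))) := by
  induction n with
  | zero => simp
  | succ n ih =>
    rw [pow_succ', RingAut.mul_apply, ih, Φ.σ_algebraMap, ← pow_mul, ← pow_add, Nat.mul_succ]

/-- the `n`-th power of a Frobenius structure (`q ↦ q ^ n`, `σ ↦ σ ^ n`). -/
def pow (Φ : FrobStr p k Ft) (n : ℕ) (hn : 0 < n) : FrobStr p k Ft where
  f := Φ.f * n
  f_pos := Nat.mul_pos Φ.f_pos hn
  σ := Φ.σ ^ n
  σ_algebraMap := Φ.pow_σ_algebraMap n
  exists_pow_fixed x := by
    obtain ⟨m, hm, hx⟩ := Φ.exists_pow_fixed x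
    refine ⟨m, hm, ?_⟩
    rw [← pow_mul, mul_comm, pow_mul]
    clear hn
    induction n with
    | zero => simp
    | succ n ih => rw [pow_succ', RingAut.mul_apply, ih, hx]

@[simp] theorem pow_σ (Φ : FrobStr p k Ft) (n : ℕ) (hn : 0 < n) : (Φ.pow n hn).σ = Φ.σ ^ n := rfl

@[simp] theorem pow_f (Φ : FrobStr p k Ft) (n : ℕ) (hn : 0 < n) : (Φ.pow n hn).f = Φ.f * n := rfl

end FrobStr

/-- **Output of the specialisation side (B).** -/
structure SpecData (K : Type u) (F : Type v) [Field K] [Field F] [Algebra K F] (ℓ : ℕ) where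
  /-- the residue characteristic -/
  p : ℕ
  hp : p.Prime
  hpℓ : p ≠ ℓ
  /-- the residue field of the place of `K` (an algebraic closure of `F_p`) -/
  k : Type u
  /-- the function field of the special fibre -/
  Ft : Type u
  instFieldk : Field k
  instFieldFt : Field Ft
  instAlgebra : Algebra k Ft
  instIsAlgClosed : IsAlgClosed k
  instCharP : CharP k p
  instFiniteResidues : FiniteResidues k Ft
  instHasPrincipalDivisors : HasPrincipalDivisors k Ft
  instNonemptyPlace : Nonempty (Place k Ft)
  nonemptyPlaceGeneric : Nonempty (Place K F)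
  /-- the reduction datum -/
  R : RedData K F k Ft
  c : ℤ
  H : LSpaceHyp R (genusFF K F : ℤ) c
  /-- a generator of the special fibre -/
  x₀ : Ft
  gen : IsGen k x₀
  /-- the Frobenius of the special fibre -/
  Φ : FrobStr p k Ft

attribute [instance] SpecData.instFieldk SpecData.instFieldFt SpecData.instAlgebra
  SpecData.instIsAlgClosed SpecData.instCharP SpecData.instFiniteResidues
  SpecData.instHasPrincipalDivisors SpecData.instNonemptyPlace

/-- **SPEC** (nodes B0–B5): every curve over an algebraically closed field of characteristic zero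
has a good reduction to an algebraic closure of a finite field of characteristic `≠ ℓ`. -/
def SpecStmt : Prop :=
  ∀ (K : Type u) (F : Type v) [Field K] [Field F] [Algebra K F] [IsAlgClosed K] [CharZero K]
    [IsCurveOver K F] [Algebra.EssFiniteType K F] (ℓ : ℕ) [Fact ℓ.Prime],
    Nonempty (SpecData K F ℓ)

/-- **TORSISO** (nodes B6, B7): in the abstract good-reduction frame the `m`-torsion of `Pic⁰` of
the two fibres have the same cardinality (`m` invertible in the residue field). -/
def TorsIsoStmt : Prop :=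
  ∀ (K : Type u) (F : Type v) (k Ft : Type u) [Field K] [Field F] [Algebra K F] [Field k] [Field Ft]
    [Algebra k Ft] [IsAlgClosed K] [IsAlgClosed k]
    [FiniteResidues K F] [HasPrincipalDivisors K F] [Nonempty (Place K F)]
    [FiniteResidues k Ft] [HasPrincipalDivisors k Ft] [Nonempty (Place k Ft)]
    (R : RedData K F k Ft) (g : ℕ) (c : ℤ) (_ : LSpaceHyp R (g : ℤ) c) (m : ℕ) (_ : (m : k) ≠ 0),
    Nat.card (Pic0.torsion K F m) = Nat.card (Pic0.torsion k Ft m)

/-- **COUNT** (nodes A0–A8): over an algebraically closed field `k` of characteristic `p`, a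
function field with a Frobenius structure and Riemann's theorem with genus `g` has exactly
`ℓ ^ (2 g n)` divisor classes of degree zero killed by `ℓ ^ n` (`ℓ ≠ p`). -/
def CountStmt : Prop :=
  ∀ (p : ℕ) [Fact p.Prime] (k Ft : Type u) [Field k] [Field Ft] [Algebra k Ft] [IsAlgClosed k]
    [CharP k p] [FiniteResidues k Ft] [HasPrincipalDivisors k Ft] [Nonempty (Place k Ft)]
    (_ : FrobStr p k Ft) (x₀ : Ft) [IsGen k x₀] (g : ℕ) (c : ℤ)
    (_ : ∀ Q : Place k Ft, Q.deg = 1)
    (_ : ∀ E : Divisor k Ft, c ≤ Divisor.degree E →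
      (Module.finrank k (riemannRochSpace E) : ℤ) = Divisor.degree E + 1 - g)
    (ℓ : ℕ) [Fact ℓ.Prime] (_ : ℓ ≠ p) (n : ℕ),
    Nat.card (Pic0.torsion k Ft (ℓ ^ n)) = ℓ ^ (2 * g * n)

end Fermat.Agent.GJ27
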