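/-
GATE-J27 (S27) / plug (helper27): `frontStmt : LSH.FrontStmt` — the (B0) binder of helper64's
`specStmt_of_chartStmt`, from helper94's `GJ27/Front/Main.lean` (`exists_isGen`,
`gLat_eq_genusFF_nat`).
-/
import Fermat.Agent.GJ27.LSH.SpecOfChart
import Fermat.Agent.GJ27.Front.Main

set_option autoImplicit false

namespace Fermat.Agent.GJ27

universe u v

/-- **(B0) FRONT is a theorem.** -/
theorem frontStmt : LSH.FrontStmt.{u, v} := by
  intro K F _ _ _ _ _ _ _
  obtain ⟨x₀, hx₀⟩ := Front.exists_isGen K F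
  exact ⟨x₀, hx₀, fun t ht => (Front.gLat_eq_genusFF_nat ht).symm⟩

end Fermat.Agent.GJ27
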