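/-
GATE-J27 (S27) / TOP (helper27): the frozen statement S27 from the three binders of
`GJ27/Vocab.lean` — `SpecStmt` (good reduction to an algebraic closure of a finite field),
`TorsIsoStmt` (torsion of `Pic⁰` is the same on the two fibres) and `CountStmt` (the count over an
algebraic closure of a finite field).
-/
import Mathlib
import Fermat.Agent.GJ27.Vocab

set_option autoImplicit false

open AlgebraicCurve

namespace Fermat.Agent.GJ27

open Fermat.Agent.RRh45 Fermat.Agent.GJ.J1 Fermat.Agent.GJ.S37LSpace Fermat.Agent.S24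

universe u v

/-- **TOP**: `S27` from SPEC, TORSISO and COUNT. -/
theorem s27_of_binders (hS : SpecStmt.{u, v}) (hT : TorsIsoStmt.{u, v}) (hC : CountStmt.{u})
    (K : Type u) (F : Type v) [Field K] [Field F] [Algebra K F] [IsAlgClosed K] [CharZero K]
    [IsCurveOver K F] [Algebra.EssFiniteType K F]
    (ℓ : ℕ) [Fact ℓ.Prime] (n : ℕ) :
    Nat.card (Pic0.torsion K F (ℓ ^ n)) = ℓ ^ (2 * genusFF K F * n) := by
  obtain ⟨D⟩ := hS K F ℓ
  have : Nonempty (Place K F) := D.nonemptyPlaceGeneric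
  have : Fact D.p.Prime := ⟨D.hp⟩
  have : IsGen D.k D.x₀ := D.gen
  have hℓp : ℓ ≠ D.p := fun h => D.hpℓ h.symm
  have hm : ((ℓ ^ n : ℕ) : D.k) ≠ 0 := by
    rw [Nat.cast_pow]
    apply pow_ne_zero
    intro h0
    have hdvd : D.p ∣ ℓ := (CharP.cast_eq_zero_iff D.k D.p ℓ).mp h0
    exact D.hpℓ ((Nat.prime_dvd_prime_iff_eq D.hp (Fact.out : ℓ.Prime)).mp hdvd)
  rw [hT K F D.k D.Ft D.R (genusFF K F) D.c D.H (ℓ ^ n) hm]
  exact hC D.p D.k D.Ft D.Φ D.x₀ (genusFF K F) D.c D.H.degFt D.H.rrFt ℓ hℓp n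

end Fermat.Agent.GJ27
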